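import Fermat.Agent.RIB.Main.GenCtx
import Fermat.Agent.S13.Minkowski
import Fermat.Agent.S56.Tame.Main
import Fermat.Agent.S54.Frobenius
import Fermat.Agent.CFT.Recip.Surj
import Fermat.Agent.CFT.K.BridgeCyclo

/-!
# ML / Rbar / Irr2 : `[O5]` the Taylor-Wiles hypothesis `irr2` for a semistable residual representation, `p = 3, 5`

`irr2_of_unip` : `rbar0 : G_ℚ → GL₂(𝔽_p)`, `p ∈ {3, 5}`, finite level, `det = ` cyclotomic character, unipotent inertia at every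
`q ≠ p`, absolutely irreducible  `⟹`  absolutely irreducible on every subgroup of index `2`.   NO information at `p`.

Proof.  Let `v` (over `k̄`) be a common eigenvector of `H`, `s₀ ∉ H`, `v' = rbar(s₀) v` : a basis in which `H` is diagonal and
`G_ℚ ∖ H` antidiagonal (`exists_dih`, structure `Dih`).
* a unipotent element in dihedral form is `1` : `rbar` is unramified outside `p` (`Dih.eq_one_of_unip`);
* the image has exponent prime to `p` (`Dih.pow_eq_one`), so `rbar(I_p) = ⟨γ⟩` (`S56.tame_cyclic`), `γ = rbar(τ₀)`, `τ₀ ∉ H`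
  (Minkowski, `Dih.exists_inertia_not_mem`);
* `rt(g)` := the projective coordinate of `g` relative to the eigenvector `(1, κ)` of `γ` : `rt(g g') = rt(g) rt(g')^{±1}`;
  if all `rt(g)^(2n) = 1` then `g ↦ rt(g)^n` is a character, unramified everywhere, hence trivial (`halve`, Minkowski);
* `p = 3` : `rt^16 = 1`, so `rt = 1` : `(1, κ)` is a common eigenvector : contradiction;
* `p = 5` : `rt^96 = 1`, so `rt^3 = 1`.   `det γ` has order `4` (Minkowski + surjectivity of the cyclotomic character), `γ² = -det γ`,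
  so `γ^5 = -γ`; `S56.tame_frob` : `φ γ φ⁻¹ = γ^5 = -γ`, so `rt(φ) = -1` : contradiction.
-/

set_option autoImplicit false

noncomputable section

namespace Fermat.Agent.ML

local notation "Qbar" => AlgebraicClosure ℚ
local notation "GQ" => (AlgebraicClosure ℚ ≃ₐ[ℚ] AlgebraicClosure ℚ)
local notation "M₂" => Matrix (Fin 2) (Fin 2)

namespace Irr2

variable {K : Type} [Field K]

/-- dihedral form : diagonal on `H`, antidiagonal outside `H`. -/
structure Dih (M : GQ →* M₂ K) (H : Subgroup GQ) : Prop where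
  idx : H.index = 2
  diag : ∀ σ ∈ H, M σ 0 1 = 0 ∧ M σ 1 0 = 0
  anti : ∀ σ, σ ∉ H → M σ 0 0 = 0 ∧ M σ 1 1 = 0

variable {M : GQ →* M₂ K} {H : Subgroup GQ}

theorem entry_mul (M : GQ →* M₂ K) (σ τ : GQ) (i j : Fin 2) :
    M (σ * τ) i j = M σ i 0 * M τ 0 j + M σ i 1 * M τ 1 j := by
  rw [map_mul, Matrix.mul_apply, Fin.sum_univ_two]

theorem Dih.ne_zero_diag (D : Dih M H) {σ : GQ} (h : σ ∈ H) : M σ 0 0 ≠ 0 ∧ M σ 1 1 ≠ 0 := by
  have e0 := entry_mul M σ σ⁻¹ 0 0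
  have e1 := entry_mul M σ σ⁻¹ 1 1
  rw [mul_inv_cancel, map_one] at e0 e1
  rw [(D.diag σ h).1] at e0
  rw [(D.diag σ h).2] at e1
  simp only [Matrix.one_apply_eq, zero_mul, add_zero, zero_add] at e0 e1
  exact ⟨fun h0 => by rw [h0, zero_mul] at e0; exact one_ne_zero e0,
    fun h0 => by rw [h0, zero_mul] at e1; exact one_ne_zero e1⟩

theorem Dih.ne_zero_anti (D : Dih M H) {σ : GQ} (h : σ ∉ H) : M σ 0 1 ≠ 0 ∧ M σ 1 0 ≠ 0 := by
  have e0 := entry_mul M σ σ⁻¹ 0 0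
  have e1 := entry_mul M σ σ⁻¹ 1 1
  rw [mul_inv_cancel, map_one] at e0 e1
  rw [(D.anti σ h).1] at e0
  rw [(D.anti σ h).2] at e1
  simp only [Matrix.one_apply_eq, zero_mul, add_zero, zero_add] at e0 e1
  exact ⟨fun h0 => by rw [h0, zero_mul] at e0; exact one_ne_zero e0,
    fun h0 => by rw [h0, zero_mul] at e1; exact one_ne_zero e1⟩

theorem Dih.mem_of_eq_one (D : Dih M H) {σ : GQ} (h : M σ = 1) : σ ∈ H := by
  by_contra hσ
  have := (D.anti σ hσ).1
  rw [h] at this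
  simp at this

/-- the projective coordinate (relative to the vector `(1, κ)`). -/
def uu (κ : K) (X : M₂ K) : K := X 0 0 + X 0 1 * κ
def ww (κ : K) (X : M₂ K) : K := X 1 0 + X 1 1 * κ
def rt (κ : K) (X : M₂ K) : K := κ * uu κ X / ww κ X

theorem uu_mul (κ : K) (σ τ : GQ) :
    uu κ (M (σ * τ)) = M σ 0 0 * uu κ (M τ) + M σ 0 1 * ww κ (M τ) := by
  unfold uu ww
  rw [entry_mul, entry_mul]
  ring

theorem ww_mul (κ : K) (σ τ : GQ) :
    ww κ (M (σ * τ)) = M σ 1 0 * uu κ (M τ) + M σ 1 1 * ww κ (M τ) := by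
  unfold uu ww
  rw [entry_mul, entry_mul]
  ring

theorem Dih.uu_ne_zero (D : Dih M H) {κ : K} (hκ : κ ≠ 0) (σ : GQ) : uu κ (M σ) ≠ 0 := by
  unfold uu
  by_cases h : σ ∈ H
  · rw [(D.diag σ h).1, zero_mul, add_zero]
    exact (D.ne_zero_diag h).1
  · rw [(D.anti σ h).1, zero_add]
    exact mul_ne_zero (D.ne_zero_anti h).1 hκ

theorem Dih.ww_ne_zero (D : Dih M H) {κ : K} (hκ : κ ≠ 0) (σ : GQ) : ww κ (M σ) ≠ 0 := by
  unfold ww
  by_cases h : σ ∈ H
  · rw [(D.diag σ h).2, zero_add]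
    exact mul_ne_zero (D.ne_zero_diag h).2 hκ
  · rw [(D.anti σ h).2, zero_mul, add_zero]
    exact (D.ne_zero_anti h).2

theorem Dih.rt_ne_zero (D : Dih M H) {κ : K} (hκ : κ ≠ 0) (σ : GQ) : rt κ (M σ) ≠ 0 :=
  div_ne_zero (mul_ne_zero hκ (D.uu_ne_zero hκ σ)) (D.ww_ne_zero hκ σ)

theorem rt_one {κ : K} (hκ : κ ≠ 0) : rt κ (1 : M₂ K) = 1 := by
  unfold rt uu ww
  simp [hκ]

theorem Dih.rt_mul_of_mem (D : Dih M H) {κ : K} (hκ : κ ≠ 0) {σ : GQ} (h : σ ∈ H) (τ : GQ) :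
    rt κ (M (σ * τ)) = rt κ (M σ) * rt κ (M τ) := by
  have h1 := D.uu_ne_zero hκ τ
  have h2 := D.ww_ne_zero hκ τ
  have h3 := (D.ne_zero_diag h).1
  have h4 := (D.ne_zero_diag h).2
  unfold rt
  rw [uu_mul, ww_mul]
  rw [show uu κ (M σ) = M σ 0 0 by unfold uu; rw [(D.diag σ h).1, zero_mul, add_zero],
    show ww κ (M σ) = M σ 1 1 * κ by unfold ww; rw [(D.diag σ h).2, zero_add],
    (D.diag σ h).1, (D.diag σ h).2, zero_mul, zero_mul, add_zero, zero_add]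
  field_simp

theorem Dih.rt_mul_of_not_mem (D : Dih M H) {κ : K} (hκ : κ ≠ 0) {σ : GQ} (h : σ ∉ H) (τ : GQ) :
    rt κ (M (σ * τ)) = rt κ (M σ) / rt κ (M τ) := by
  have h1 := D.uu_ne_zero hκ τ
  have h2 := D.ww_ne_zero hκ τ
  have h3 := (D.ne_zero_anti h).1
  have h4 := (D.ne_zero_anti h).2
  unfold rt
  rw [uu_mul, ww_mul]
  rw [show uu κ (M σ) = M σ 0 1 * κ by unfold uu; rw [(D.anti σ h).1, zero_add],
    show ww κ (M σ) = M σ 1 0 by unfold ww; rw [(D.anti σ h).2, zero_mul, add_zero],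
    (D.anti σ h).1, (D.anti σ h).2, zero_mul, zero_mul, add_zero, zero_add]
  field_simp

/-- the homomorphism `g ↦ rt(g)^n` when all `rt(g)^(2n) = 1`. -/
def theta (D : Dih M H) {κ : K} (hκ : κ ≠ 0) (n : ℕ) (hsq : ∀ g, rt κ (M g) ^ (2 * n) = 1) :
    GQ →* K where
  toFun g := rt κ (M g) ^ n
  map_one' := by rw [map_one, rt_one hκ, one_pow]
  map_mul' a b := by
    by_cases h : a ∈ H
    · rw [D.rt_mul_of_mem hκ h, mul_pow]
    · rw [D.rt_mul_of_not_mem hκ h, div_pow]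
      have h1 : rt κ (M b) ^ n * rt κ (M b) ^ n = 1 := by
        rw [← pow_add, ← two_mul]
        exact hsq b
      have h2 : rt κ (M b) ^ n ≠ 0 := pow_ne_zero _ (D.rt_ne_zero hκ b)
      rw [div_eq_iff h2, mul_assoc, h1, mul_one]

/-- **halving** (Minkowski) -/
theorem halve (D : Dih M H) (cont : GaloisFactorsThroughFiniteLevel M) {p : ℕ}
    (unr : ∀ ℓ : ℕ, ℓ.Prime → ℓ ≠ p → ∃ A : ValuationSubring Qbar, A.LiesOverPrime ℓ ∧
      ∀ σ ∈ A.inertiaSubgroupIn ℚ, M σ = 1)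
    {A : ValuationSubring Qbar} (hA : A.LiesOverPrime p) {τ₀ : GQ}
    (hgen : ∀ σ ∈ A.inertiaSubgroupIn ℚ, ∃ j : ℕ, M σ = M τ₀ ^ j)
    {κ : K} (hκ : κ ≠ 0) (h0 : rt κ (M τ₀) = 1) (n : ℕ)
    (hsq : ∀ g, rt κ (M g) ^ (2 * n) = 1) (g : GQ) : rt κ (M g) ^ n = 1 := by
  have key := S13.hom_eq_one_of_unramified (theta D hκ n hsq).toHomUnits ?_ ?_ g
  · have := congrArg Units.val key
    rw [MonoidHom.coe_toHomUnits] at this
    exact this
  · obtain ⟨L, hL, hL'⟩ := cont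
    refine ⟨L, hL, fun σ hσ => Units.ext ?_⟩
    rw [MonoidHom.coe_toHomUnits]
    show rt κ (M σ) ^ n = 1
    rw [hL' σ hσ, rt_one hκ, one_pow]
  · intro ℓ hℓ
    by_cases hℓp : ℓ = p
    · subst hℓp
      refine ⟨A, hA, fun σ hσ => Units.ext ?_⟩
      rw [MonoidHom.coe_toHomUnits]
      obtain ⟨j, hj⟩ := hgen σ hσ
      have h1 : theta D hκ n hsq σ = theta D hκ n hsq (τ₀ ^ j) := by
        show rt κ (M σ) ^ n = rt κ (M (τ₀ ^ j)) ^ n
        rw [hj, map_pow]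
      rw [h1, map_pow]
      show (rt κ (M τ₀) ^ n) ^ j = 1
      rw [h0, one_pow, one_pow]
    · obtain ⟨B, hB, hB'⟩ := unr ℓ hℓ hℓp
      refine ⟨B, hB, fun σ hσ => Units.ext ?_⟩
      rw [MonoidHom.coe_toHomUnits]
      show rt κ (M σ) ^ n = 1
      rw [hB' σ hσ, rt_one hκ, one_pow]

/-- iterated halving -/
theorem halve_iter (D : Dih M H) (cont : GaloisFactorsThroughFiniteLevel M) {p : ℕ}
    (unr : ∀ ℓ : ℕ, ℓ.Prime → ℓ ≠ p → ∃ A : ValuationSubring Qbar, A.LiesOverPrime ℓ ∧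
      ∀ σ ∈ A.inertiaSubgroupIn ℚ, M σ = 1)
    {A : ValuationSubring Qbar} (hA : A.LiesOverPrime p) {τ₀ : GQ}
    (hgen : ∀ σ ∈ A.inertiaSubgroupIn ℚ, ∃ j : ℕ, M σ = M τ₀ ^ j)
    {κ : K} (hκ : κ ≠ 0) (h0 : rt κ (M τ₀) = 1) (n : ℕ) :
    ∀ e : ℕ, (∀ g, rt κ (M g) ^ (2 ^ e * n) = 1) → ∀ g, rt κ (M g) ^ n = 1
  | 0, h => fun g => by simpa using h g
  | e + 1, h => halve_iter D cont unr hA hgen hκ h0 n e
      (halve D cont unr hA hgen hκ h0 (2 ^ e * n) (fun g => by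
        rw [← mul_assoc, ← pow_succ']
        exact h g))

theorem Dih.entry_pow (D : Dih M H) {h : GQ} (hh : h ∈ H) (j : ℕ) :
    M (h ^ j) 0 0 = M h 0 0 ^ j ∧ M (h ^ j) 1 1 = M h 1 1 ^ j := by
  induction j with
  | zero => simp
  | succ j ih =>
    rw [pow_succ, entry_mul, entry_mul, ih.1, ih.2, (D.diag h hh).1, (D.diag h hh).2]
    constructor <;> ring

theorem Dih.rt_pow (D : Dih M H) {κ : K} (hκ : κ ≠ 0) {h : GQ} (hh : h ∈ H) (j : ℕ) :
    rt κ (M (h ^ j)) = rt κ (M h) ^ j := by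
  induction j with
  | zero => rw [pow_zero, map_one, rt_one hκ, pow_zero]
  | succ j ih => rw [pow_succ', D.rt_mul_of_mem hκ hh, ih, pow_succ']

theorem eq_one_of_pow_char {p : ℕ} [Fact p.Prime] [CharP K p] {x : K} (h : x ^ p = 1) : x = 1 := by
  have h1 : (x - 1) ^ p = 0 := by rw [sub_pow_char, h, one_pow, sub_self]
  exact sub_eq_zero.1 (pow_eq_zero_iff (Fact.out : p.Prime).ne_zero |>.1 h1)

/-- the image has exponent prime to `p`. -/
theorem Dih.pow_eq_one (D : Dih M H) {p : ℕ} [Fact p.Prime] [CharP K p] {N : ℕ} (hN : Even N)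
    (h : ∀ g, M g ^ (p * N) = 1) (g : GQ) : M g ^ N = 1 := by
  obtain ⟨r, rfl⟩ := hN
  have hm : g ^ (r + r) ∈ H := by
    rw [← two_mul, mul_comm, pow_mul]
    exact Subgroup.sq_mem_of_index_two D.idx _
  have h1 : M ((g ^ (r + r)) ^ p) = 1 := by
    rw [← pow_mul, mul_comm, map_pow]
    exact h g
  have h2 := D.entry_pow hm p
  rw [h1] at h2
  have h3 : M (g ^ (r + r)) 0 0 = 1 := eq_one_of_pow_char (p := p) (by rw [← h2.1]; simp)
  have h4 : M (g ^ (r + r)) 1 1 = 1 := eq_one_of_pow_char (p := p) (by rw [← h2.2]; simp)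
  rw [← map_pow]
  ext i j
  fin_cases i <;> fin_cases j
  · simpa using h3
  · simpa using (D.diag _ hm).1
  · simpa using (D.diag _ hm).2
  · simpa using h4

/-- `H` is not everything, so (Minkowski) inertia at `p` is not contained in `H`. -/
theorem Dih.exists_inertia_not_mem (D : Dih M H) (cont : GaloisFactorsThroughFiniteLevel M) {p : ℕ}
    (unr : ∀ ℓ : ℕ, ℓ.Prime → ℓ ≠ p → ∃ A : ValuationSubring Qbar, A.LiesOverPrime ℓ ∧
      ∀ σ ∈ A.inertiaSubgroupIn ℚ, M σ = 1)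
    {A : ValuationSubring Qbar} (hA : A.LiesOverPrime p) :
    ∃ σ ∈ A.inertiaSubgroupIn ℚ, σ ∉ H := by
  by_contra hcon
  push Not at hcon
  have : H.Normal := Subgroup.normal_of_index_eq_two D.idx
  have htop : H = ⊤ := by
    apply S13.eq_top_of_inertia_le
    · obtain ⟨L, hL, hL'⟩ := cont
      refine ⟨L, hL, fun σ hσ => D.mem_of_eq_one (hL' σ fun x hx => ?_)⟩
      exact (IntermediateField.mem_fixingSubgroup_iff _ _).mp hσ x hx
    · intro ℓ hℓ
      by_cases hℓp : ℓ = p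
      · subst hℓp
        exact ⟨A, hA, hcon⟩
      · obtain ⟨B, hB, hB'⟩ := unr ℓ hℓ hℓp
        exact ⟨B, hB, fun σ hσ => D.mem_of_eq_one (hB' σ hσ)⟩
  have := D.idx
  rw [htop, Subgroup.index_top] at this
  omega

/-- a generator `τ₀ ∉ H` of the image of inertia at `p`, and the normalisation `rt(τ₀) = 1`. -/
theorem Dih.exists_gen [IsAlgClosed K] (D : Dih M H) (cont : GaloisFactorsThroughFiniteLevel M)
    {p : ℕ} (hp : p.Prime)
    (unr : ∀ ℓ : ℕ, ℓ.Prime → ℓ ≠ p → ∃ A : ValuationSubring Qbar, A.LiesOverPrime ℓ ∧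
      ∀ σ ∈ A.inertiaSubgroupIn ℚ, M σ = 1)
    {A : ValuationSubring Qbar} (hA : A.LiesOverPrime p) {N : ℕ} (hNp : Nat.Coprime N p)
    (hN : ∀ g, M g ^ N = 1) :
    ∃ τ₀ ∈ A.inertiaSubgroupIn ℚ, τ₀ ∉ H ∧ (∀ σ ∈ A.inertiaSubgroupIn ℚ, ∃ j : ℕ, M σ = M τ₀ ^ j) ∧
      ∃ κ : K, κ ≠ 0 ∧ rt κ (M τ₀) = 1 := by
  obtain ⟨L, hL, hL'⟩ := cont
  obtain ⟨σ₀, hσ₀⟩ := S56.tame_cyclic hp hA (M.comp (A.inertiaSubgroupIn ℚ).subtype)
    ⟨L, hL, fun σ hσ => hL' σ hσ⟩ N hNp (fun σ => hN σ)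
  have hgen : ∀ σ ∈ A.inertiaSubgroupIn ℚ, ∃ j : ℕ, M σ = M (σ₀ : GQ) ^ j :=
    fun σ hσ => hσ₀ ⟨σ, hσ⟩
  have hnot : (σ₀ : GQ) ∉ H := by
    intro hmem
    obtain ⟨σ, hσ, hσH⟩ := D.exists_inertia_not_mem ⟨L, hL, hL'⟩ unr hA
    obtain ⟨j, hj⟩ := hgen σ hσ
    have h1 := (D.anti σ hσH).1
    rw [hj, ← map_pow] at h1
    exact (D.ne_zero_diag (H.pow_mem hmem j)).1 h1
  refine ⟨σ₀, σ₀.2, hnot, hgen, ?_⟩
  have ha := (D.ne_zero_anti hnot).1
  have hb := (D.ne_zero_anti hnot).2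
  obtain ⟨κ, hκ⟩ := IsAlgClosed.exists_pow_nat_eq (M (σ₀ : GQ) 1 0 / M (σ₀ : GQ) 0 1)
    (n := 2) (by norm_num)
  have hκ0 : κ ≠ 0 := by
    rintro rfl
    rw [zero_pow (by norm_num)] at hκ
    exact div_ne_zero hb ha hκ.symm
  refine ⟨κ, hκ0, ?_⟩
  unfold rt uu ww
  rw [(D.anti _ hnot).1, (D.anti _ hnot).2, zero_add, zero_mul, add_zero, div_eq_one_iff_eq hb]
  rw [eq_div_iff ha] at hκ
  rw [← hκ]
  ring

theorem Dih.rt_pow_eq_one (D : Dih M H) {κ : K} (hκ : κ ≠ 0) {τ₀ : GQ} (hτ : τ₀ ∉ H)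
    (h0 : rt κ (M τ₀) = 1) {N : ℕ} (hN : ∀ g, M g ^ N = 1) (g : GQ) : rt κ (M g) ^ N = 1 := by
  have key : ∀ h ∈ H, rt κ (M h) ^ N = 1 := by
    intro h hh
    rw [← D.rt_pow hκ hh, map_pow, hN, rt_one hκ]
  by_cases hg : g ∈ H
  · exact key g hg
  · have hm : τ₀⁻¹ * g ∈ H := by
      rw [Subgroup.mul_mem_iff_of_index_two D.idx, H.inv_mem_iff]
      exact ⟨fun h => absurd h hτ, fun h => absurd h hg⟩
    have h1 : rt κ (M g) = 1 / rt κ (M (τ₀⁻¹ * g)) := by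
      rw [← h0, ← D.rt_mul_of_not_mem hκ hτ, mul_inv_cancel_left]
    rw [h1, div_pow, one_pow, key _ hm, div_one]

theorem mulVec_of_rt_eq_one {κ : K} {X : M₂ K} (hw : ww κ X ≠ 0) (h : rt κ X = 1) :
    X.mulVec ![1, κ] = uu κ X • ![1, κ] := by
  unfold rt at h
  rw [div_eq_one_iff_eq hw] at h
  funext i
  fin_cases i
  · simp [Matrix.mulVec, dotProduct, Fin.sum_univ_two, uu]
  · simp only [Matrix.mulVec, dotProduct, Fin.sum_univ_two]
    simp only [Fin.mk_one, Fin.isValue, Matrix.cons_val_zero, mul_one, Matrix.cons_val_one,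
      Pi.smul_apply, smul_eq_mul]
    rw [mul_comm (uu κ X), h]
    rfl

/-- if all `rt` are `1`, the vector `(1, κ)` is a common eigenvector. -/
theorem Dih.false_of_rt (D : Dih M H) {κ : K} (hκ : κ ≠ 0) (h : ∀ g, rt κ (M g) = 1)
    (irr : ∀ v : Fin 2 → K, v ≠ 0 → ∃ σ : GQ, ∀ c : K, (M σ).mulVec v ≠ c • v) : False := by
  obtain ⟨σ, hσ⟩ := irr ![1, κ] (fun h0 => one_ne_zero (congrFun h0 0))
  exact hσ _ (mulVec_of_rt_eq_one (D.ww_ne_zero hκ σ) (h σ))

/-- `M φ` anticommutes with `M τ₀` : then `rt(φ) = -1`. -/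
theorem Dih.rt_eq_neg_one (D : Dih M H) {κ : K} (hκ : κ ≠ 0) {τ₀ φ : GQ} (hτ : τ₀ ∉ H)
    (h0 : rt κ (M τ₀) = 1) (hanti : M φ * M τ₀ = -(M τ₀ * M φ)) : rt κ (M φ) = -1 := by
  have ha := (D.ne_zero_anti hτ).1
  have hb := (D.ne_zero_anti hτ).2
  have hk : κ * (M τ₀ 0 1 * κ) = M τ₀ 1 0 := by
    unfold rt uu ww at h0
    rw [(D.anti _ hτ).1, (D.anti _ hτ).2, zero_add, zero_mul, add_zero, div_eq_one_iff_eq hb] at h0
    exact h0
  by_cases hφ : φ ∈ H
  · have e := congrFun (congrFun hanti 0) 1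
    rw [Matrix.neg_apply, Matrix.mul_apply, Matrix.mul_apply, Fin.sum_univ_two, Fin.sum_univ_two,
      (D.diag _ hφ).1, (D.anti _ hτ).1, (D.anti _ hτ).2] at e
    simp only [mul_zero, add_zero, zero_add] at e
    have e2 : M φ 0 0 = - M φ 1 1 := by
      apply mul_right_cancel₀ ha
      rw [e]
      ring
    unfold rt uu ww
    rw [(D.diag _ hφ).1, (D.diag _ hφ).2, zero_mul, add_zero, zero_add, e2]
    have := (D.ne_zero_diag hφ).2
    field_simp
  · have e := congrFun (congrFun hanti 0) 0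
    rw [Matrix.neg_apply, Matrix.mul_apply, Matrix.mul_apply, Fin.sum_univ_two, Fin.sum_univ_two,
      (D.anti _ hφ).1, (D.anti _ hτ).1] at e
    simp only [zero_mul, zero_add] at e
    unfold rt uu ww
    rw [(D.anti _ hφ).1, (D.anti _ hφ).2, zero_mul, add_zero, zero_add]
    have h10 := (D.ne_zero_anti hφ).2
    rw [div_eq_iff h10]
    apply mul_right_cancel₀ ha
    calc κ * (M φ 0 1 * κ) * M τ₀ 0 1 = M φ 0 1 * (κ * (M τ₀ 0 1 * κ)) := by ring
      _ = M φ 0 1 * M τ₀ 1 0 := by rw [hk]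
      _ = -(M τ₀ 0 1 * M φ 1 0) := e
      _ = -1 * M φ 1 0 * M τ₀ 0 1 := by ring

/-- the square of an antidiagonal matrix. -/
theorem Dih.sq_of_not_mem (D : Dih M H) {τ : GQ} (hτ : τ ∉ H) :
    M τ * M τ = (-(M τ).det) • (1 : M₂ K) := by
  ext i j
  rw [Matrix.mul_apply, Fin.sum_univ_two, Matrix.det_fin_two, (D.anti _ hτ).1, (D.anti _ hτ).2]
  fin_cases i <;> fin_cases j <;>
    simp [(D.anti _ hτ).1, (D.anti _ hτ).2, mul_comm]

/-- **`p = 3`** -/
theorem Dih.false_three [CharP K 3] [IsAlgClosed K] (D : Dih M H)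
    (cont : GaloisFactorsThroughFiniteLevel M)
    (unr : ∀ ℓ : ℕ, ℓ.Prime → ℓ ≠ 3 → ∃ A : ValuationSubring Qbar, A.LiesOverPrime ℓ ∧
      ∀ σ ∈ A.inertiaSubgroupIn ℚ, M σ = 1)
    (irr : ∀ v : Fin 2 → K, v ≠ 0 → ∃ σ : GQ, ∀ c : K, (M σ).mulVec v ≠ c • v)
    (hE : ∀ g, M g ^ (3 * 16) = 1) : False := by
  have : Fact (Nat.Prime 3) := ⟨Nat.prime_three⟩
  have hN := D.pow_eq_one (p := 3) (N := 16) ⟨8, rfl⟩ hE
  obtain ⟨A, hA⟩ := S13.exists_place 3 Nat.prime_three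
  obtain ⟨τ₀, -, hτH, hgen, κ, hκ, h0⟩ :=
    D.exists_gen cont Nat.prime_three unr hA (N := 16) (by norm_num) hN
  have h1 := D.rt_pow_eq_one hκ hτH h0 hN
  have h2 := halve_iter D cont unr hA hgen hκ h0 1 4 (fun g => by simpa using h1 g)
  exact D.false_of_rt hκ (fun g => by simpa using h2 g) irr

/-- the cyclotomic character mod `5` has order `4` on a generator of inertia at `5`. -/
theorem cyclo_sq_ne_one [Fact (Nat.Prime 5)] (ι : ZMod 5 →+* K)
    (hdet : ∀ g, (M g).det = ι (ExtCitation.cycloChar 5 g : ZMod 5))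
    {A : ValuationSubring Qbar} (hA : A.LiesOverPrime 5) {τ₀ : GQ}
    (hgen : ∀ σ ∈ A.inertiaSubgroupIn ℚ, ∃ j : ℕ, M σ = M τ₀ ^ j) :
    (ExtCitation.cycloChar 5 τ₀) ^ 2 ≠ 1 := by
  intro hz
  have key := S13.hom_eq_one_of_unramified
    ((powMonoidHom 2).comp (ExtCitation.cycloChar 5)) ?_ ?_
  · obtain ⟨g, hg⟩ := CFT.Recip.cycloChar_surjective 5 (ZMod.unitOfCoprime 2 (by decide))
    have h1 := key g
    rw [MonoidHom.comp_apply, CFT.cycloChar_eq_gal, hg] at h1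
    have h2 := congrArg Units.val h1
    rw [powMonoidHom_apply, Units.val_pow_eq_pow_val, ZMod.coe_unitOfCoprime, Units.val_one] at h2
    have h3 : ((4 : ℕ) : ZMod 5) = ((1 : ℕ) : ZMod 5) := by
      rw [Nat.cast_one, ← h2]
      norm_num
    rw [ZMod.natCast_eq_natCast_iff] at h3
    exact absurd h3 (by decide)
  · obtain ⟨L, hL, hL'⟩ := GAL.cycloChar_finiteLevel 5
    refine ⟨L, hL, fun σ hσ => ?_⟩
    rw [MonoidHom.comp_apply, CFT.cycloChar_eq_gal, hL' σ hσ, map_one]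
  · intro ℓ hℓ
    by_cases hℓp : ℓ = 5
    · subst hℓp
      refine ⟨A, hA, fun σ hσ => ?_⟩
      obtain ⟨j, hj⟩ := hgen σ hσ
      have h1 : ExtCitation.cycloChar 5 σ = ExtCitation.cycloChar 5 τ₀ ^ j := by
        apply Units.ext
        apply ι.injective
        rw [← hdet, hj, Matrix.det_pow, hdet, Units.val_pow_eq_pow_val, map_pow]
      rw [MonoidHom.comp_apply, h1]
      show (ExtCitation.cycloChar 5 τ₀ ^ j) ^ 2 = 1
      rw [← pow_mul, mul_comm, pow_mul, hz, one_pow]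
    · obtain ⟨B, hB⟩ := S13.exists_place ℓ hℓ
      refine ⟨B, hB, fun σ hσ => ?_⟩
      rw [MonoidHom.comp_apply, CFT.cycloChar_eq_gal, GAL.cycloChar_of_mem_inertia hℓ hℓp hB hσ,
        map_one]

theorem sq_eq_neg_one_of_ne (z : (ZMod 5)ˣ) (h : z ^ 2 ≠ 1) : (z : ZMod 5) ^ 2 = -1 := by
  revert z
  decide

/-- **`p = 5`** -/
theorem Dih.false_five [Fact (Nat.Prime 5)] [CharP K 5] [IsAlgClosed K] (D : Dih M H)
    (cont : GaloisFactorsThroughFiniteLevel M)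
    (unr : ∀ ℓ : ℕ, ℓ.Prime → ℓ ≠ 5 → ∃ A : ValuationSubring Qbar, A.LiesOverPrime ℓ ∧
      ∀ σ ∈ A.inertiaSubgroupIn ℚ, M σ = 1)
    (ι : ZMod 5 →+* K) (hdet : ∀ g, (M g).det = ι (ExtCitation.cycloChar 5 g : ZMod 5))
    (hE : ∀ g, M g ^ (5 * 96) = 1) : False := by
  have hp : Nat.Prime 5 := Fact.out
  have hN := D.pow_eq_one (p := 5) (N := 96) ⟨48, rfl⟩ hE
  obtain ⟨A, hA⟩ := S13.exists_place 5 hp
  obtain ⟨τ₀, hτI, hτH, hgen, κ, hκ, h0⟩ :=
    D.exists_gen cont hp unr hA (N := 96) (by norm_num) hN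
  have h1 := D.rt_pow_eq_one hκ hτH h0 hN
  have h2 := halve_iter D cont unr hA hgen hκ h0 3 5 (fun g => by simpa using h1 g)
  obtain ⟨φ, hφ⟩ := S54.exists_isFrobeniusAt_of_liesOverPrime hp A hA
  have hconj : φ * τ₀ * φ⁻¹ ∈ A.inertiaSubgroupIn ℚ :=
    S56.conj_mem_inertia hp hA hφ.mem_decompositionSubgroup hτI
  obtain ⟨L, hL, hL'⟩ := cont
  have htame : M (φ * τ₀ * φ⁻¹) = M τ₀ ^ 5 :=
    S56.tame_frob hp hA (M.comp (A.inertiaSubgroupIn ℚ).subtype)
      ⟨L, hL, fun σ hσ => hL' σ hσ⟩ 96 (by norm_num) (fun σ => hN σ) hφ ⟨τ₀, hτI⟩ hconj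
  have hd : (M τ₀).det ^ 2 = -1 := by
    rw [hdet, ← map_pow, sq_eq_neg_one_of_ne _ (cyclo_sq_ne_one ι hdet hA hgen), map_neg, map_one]
  have h5 : M τ₀ ^ 5 = - M τ₀ := by
    have e : M τ₀ ^ 5 = (M τ₀ * M τ₀) * (M τ₀ * M τ₀) * M τ₀ := by
      simp only [pow_succ, pow_zero, one_mul, mul_assoc]
    rw [e, D.sq_of_not_mem hτH, smul_mul_smul_comm, one_mul, neg_mul_neg, ← pow_two, hd,
      Matrix.smul_mul, one_mul, neg_smul, one_smul]
  have hanti : M φ * M τ₀ = -(M τ₀ * M φ) := by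
    have e : M (φ * τ₀ * φ⁻¹) * M φ = M φ * M τ₀ := by
      rw [← map_mul, ← map_mul, inv_mul_cancel_right]
    rw [← e, htame, h5, neg_mul]
  have h3 := h2 φ
  rw [D.rt_eq_neg_one hκ hτH h0 hanti] at h3
  have h4 : (2 : K) = 0 := by
    have : (-1 : K) ^ 3 = -1 := by ring
    rw [this] at h3
    linear_combination -h3
  have h6 : ((2 : ℕ) : K) = 0 := by exact_mod_cast h4
  rw [CharP.cast_eq_zero_iff K 5] at h6
  omega

/-- unipotent elements are trivial in dihedral form. -/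
theorem Dih.eq_one_of_unip (D : Dih M H) (h2 : (2 : K) ≠ 0) {τ : GQ}
    (h : (M τ - 1) * (M τ - 1) = 0) : M τ = 1 := by
  by_cases hτ : τ ∈ H
  · have e0 := congrFun (congrFun h 0) 0
    have e1 := congrFun (congrFun h 1) 1
    rw [Matrix.mul_apply, Fin.sum_univ_two] at e0 e1
    simp only [Matrix.sub_apply, (D.diag _ hτ).1, (D.diag _ hτ).2, Matrix.one_apply_eq,
      Matrix.zero_apply] at e0 e1
    simp only [ne_eq, zero_ne_one, one_ne_zero, not_false_eq_true, Matrix.one_apply_ne, sub_self,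
      mul_zero, add_zero, zero_add, mul_self_eq_zero] at e0 e1
    ext i j
    fin_cases i <;> fin_cases j
    · simpa using sub_eq_zero.1 e0
    · simpa using (D.diag _ hτ).1
    · simpa using (D.diag _ hτ).2
    · simpa using sub_eq_zero.1 e1
  · exfalso
    have e0 := congrFun (congrFun h 0) 1
    rw [Matrix.mul_apply, Fin.sum_univ_two] at e0
    simp only [Matrix.sub_apply, (D.anti _ hτ).1, (D.anti _ hτ).2, Matrix.one_apply_eq,
      Matrix.zero_apply] at e0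
    simp only [ne_eq, zero_ne_one, not_false_eq_true, Matrix.one_apply_ne, sub_zero] at e0
    have e1 : (2 : K) * M τ 0 1 = 0 := by linear_combination -e0
    rcases mul_eq_zero.1 e1 with h3 | h3
    · exact h2 h3
    · exact (D.ne_zero_anti hτ).1 h3

/-! ### change of basis -/

/-- conjugation by an invertible matrix -/
def conjHom (P : M₂ K) (hP : IsUnit P.det) (R : GQ →* M₂ K) : GQ →* M₂ K where
  toFun σ := P⁻¹ * R σ * P
  map_one' := by rw [map_one, mul_one, Matrix.nonsing_inv_mul _ hP]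
  map_mul' a b := by
    rw [map_mul]
    calc P⁻¹ * (R a * R b) * P = P⁻¹ * R a * (P * P⁻¹) * R b * P := by
          rw [Matrix.mul_nonsing_inv _ hP, mul_one]
          simp only [mul_assoc]
      _ = _ := by simp only [mul_assoc]

theorem conjHom_apply (P : M₂ K) (hP : IsUnit P.det) (R : GQ →* M₂ K) (σ : GQ) :
    conjHom P hP R σ = P⁻¹ * R σ * P := rfl

theorem conjHom_eq_one (P : M₂ K) (hP : IsUnit P.det) (R : GQ →* M₂ K) {σ : GQ} (h : R σ = 1) :
    conjHom P hP R σ = 1 := by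
  rw [conjHom_apply, h, mul_one, Matrix.nonsing_inv_mul _ hP]

theorem conjHom_det (P : M₂ K) (hP : IsUnit P.det) (R : GQ →* M₂ K) (σ : GQ) :
    (conjHom P hP R σ).det = (R σ).det := by
  rw [conjHom_apply, Matrix.det_mul, Matrix.det_mul, mul_comm, ← mul_assoc, ← Matrix.det_mul,
    Matrix.mul_nonsing_inv _ hP, Matrix.det_one, one_mul]

/-- the matrix with columns `v`, `v'`. -/
def colMat (v v' : Fin 2 → K) : M₂ K := !![v 0, v' 0; v 1, v' 1]

theorem conj_eq {v v' : Fin 2 → K} (hP : IsUnit (colMat v v').det) {X : M₂ K} {α β γ δ : K}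
    (h1 : X.mulVec v = α • v + β • v') (h2 : X.mulVec v' = γ • v + δ • v') :
    (colMat v v')⁻¹ * X * colMat v v' = !![α, γ; β, δ] := by
  have key : X * colMat v v' = colMat v v' * !![α, γ; β, δ] := by
    have e10 := congrFun h1 0
    have e11 := congrFun h1 1
    have e20 := congrFun h2 0
    have e21 := congrFun h2 1
    simp only [Matrix.mulVec, dotProduct, Fin.sum_univ_two, Pi.add_apply, Pi.smul_apply,
      smul_eq_mul] at e10 e11 e20 e21
    ext i j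
    fin_cases i <;> fin_cases j <;>
      simp only [colMat, Matrix.mul_apply, Fin.sum_univ_two, Fin.zero_eta, Fin.mk_one, Fin.isValue,
        Matrix.of_apply, Matrix.cons_val', Matrix.cons_val_zero, Matrix.cons_val_one,
        Matrix.cons_val_fin_one]
    · linear_combination e10
    · linear_combination e20
    · linear_combination e11
    · linear_combination e21
  rw [mul_assoc, key, ← mul_assoc, Matrix.nonsing_inv_mul _ hP, one_mul]

theorem exists_smul_of_det_eq_zero {v v' : Fin 2 → K} (hv : v ≠ 0) (h : (colMat v v').det = 0) :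
    ∃ c : K, v' = c • v := by
  rw [colMat, Matrix.det_fin_two_of] at h
  by_cases h0 : v 0 = 0
  · have h1 : v 1 ≠ 0 := by
      intro h1
      apply hv
      funext i
      fin_cases i
      · exact h0
      · exact h1
    rw [h0, zero_mul, zero_sub, neg_eq_zero] at h
    have h2 : v' 0 = 0 := (mul_eq_zero.1 h).resolve_right h1
    refine ⟨v' 1 / v 1, ?_⟩
    funext i
    fin_cases i
    · simp [h0, h2]
    · simp [h1]
  · refine ⟨v' 0 / v 0, ?_⟩
    funext i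
    fin_cases i
    · simp [h0]
    · simp only [Fin.mk_one, Fin.isValue, Pi.smul_apply, smul_eq_mul]
      field_simp
      linear_combination h

theorem mulVec_mul (R : GQ →* M₂ K) (a b : GQ) (v : Fin 2 → K) :
    (R (a * b)).mulVec v = (R a).mulVec ((R b).mulVec v) := by
  rw [map_mul, Matrix.mulVec_mulVec]

/-- **the dihedral form** of an irreducible representation which is reducible on `H`. -/
theorem exists_dih (R : GQ →* M₂ K) (hH : H.index = 2)
    (irr : ∀ v : Fin 2 → K, v ≠ 0 → ∃ σ : GQ, ∀ c : K, (R σ).mulVec v ≠ c • v)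
    {v : Fin 2 → K} (hv : v ≠ 0) (hred : ∀ σ ∈ H, ∃ c : K, (R σ).mulVec v = c • v) :
    ∃ (P : M₂ K) (hP : IsUnit P.det), Dih (conjHom P hP R) H := by
  have hnorm : H.Normal := Subgroup.normal_of_index_eq_two hH
  obtain ⟨s₀, hs₀⟩ : ∃ s₀ : GQ, s₀ ∉ H := by
    by_contra hcon
    push Not at hcon
    have : H = ⊤ := (Subgroup.eq_top_iff' H).2 hcon
    rw [this, Subgroup.index_top] at hH
    omega
  have hout : ∀ σ, σ ∉ H → s₀⁻¹ * σ ∈ H := by
    intro σ hσ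
    rw [Subgroup.mul_mem_iff_of_index_two hH, H.inv_mem_iff]
    exact ⟨fun h => absurd h hs₀, fun h => absurd h hσ⟩
  set v' : Fin 2 → K := (R s₀).mulVec v with hv'
  have hA1 : ∀ σ, σ ∉ H → ∃ c : K, (R σ).mulVec v = c • v' := by
    intro σ hσ
    obtain ⟨c, hc⟩ := hred _ (hout σ hσ)
    refine ⟨c, ?_⟩
    have : σ = s₀ * (s₀⁻¹ * σ) := by rw [mul_inv_cancel_left]
    rw [this, mulVec_mul, hc, Matrix.mulVec_smul]
  have hdet : (colMat v v').det ≠ 0 := by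
    intro h0
    obtain ⟨c, hc⟩ := exists_smul_of_det_eq_zero hv h0
    obtain ⟨σ, hσ⟩ := irr v hv
    by_cases hm : σ ∈ H
    · obtain ⟨c1, hc1⟩ := hred σ hm
      exact hσ c1 hc1
    · obtain ⟨c1, hc1⟩ := hA1 σ hm
      exact hσ (c1 * c) (by rw [hc1, hc, smul_smul])
  have hP : IsUnit (colMat v v').det := isUnit_iff_ne_zero.2 hdet
  refine ⟨colMat v v', hP, hH, fun σ hσ => ?_, fun σ hσ => ?_⟩
  · obtain ⟨c, hc⟩ := hred σ hσ
    obtain ⟨c', hc'⟩ := hred (s₀⁻¹ * σ * s₀) (by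
      have := hnorm.conj_mem σ hσ s₀⁻¹
      rwa [inv_inv] at this)
    have h2 : (R σ).mulVec v' = c' • v' := by
      rw [hv', ← mulVec_mul]
      have : σ * s₀ = s₀ * (s₀⁻¹ * σ * s₀) := by simp only [mul_assoc, mul_inv_cancel_left]
      rw [this, mulVec_mul, hc', Matrix.mulVec_smul]
    rw [conjHom_apply, conj_eq hP (α := c) (β := 0) (γ := 0) (δ := c')
      (by rw [hc, zero_smul, add_zero]) (by rw [h2, zero_smul, zero_add])]
    simp
  · obtain ⟨c, hc⟩ := hA1 σ hσ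
    obtain ⟨c', hc'⟩ := hred (σ * s₀) (by
      rw [Subgroup.mul_mem_iff_of_index_two hH]
      exact ⟨fun h => absurd h hσ, fun h => absurd h hs₀⟩)
    have h2 : (R σ).mulVec v' = c' • v := by
      rw [hv', ← mulVec_mul, hc']
    rw [conjHom_apply, conj_eq hP (α := 0) (β := c) (γ := c') (δ := 0)
      (by rw [hc, zero_smul, zero_add]) (by rw [h2, zero_smul, add_zero])]
    simp

theorem conjHom_irr (P : M₂ K) (hP : IsUnit P.det) (R : GQ →* M₂ K)
    (irr : ∀ v : Fin 2 → K, v ≠ 0 → ∃ σ : GQ, ∀ c : K, (R σ).mulVec v ≠ c • v) :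
    ∀ v : Fin 2 → K, v ≠ 0 → ∃ σ : GQ, ∀ c : K, (conjHom P hP R σ).mulVec v ≠ c • v := by
  intro v hv
  have hPv : P.mulVec v ≠ 0 := by
    intro h0
    apply hv
    have := congrArg (P⁻¹).mulVec h0
    rwa [Matrix.mulVec_mulVec, Matrix.nonsing_inv_mul _ hP, Matrix.one_mulVec,
      Matrix.mulVec_zero] at this
  obtain ⟨σ, hσ⟩ := irr _ hPv
  refine ⟨σ, fun c hc => hσ c ?_⟩
  have := congrArg P.mulVec hc
  rw [conjHom_apply, Matrix.mulVec_mulVec, ← mul_assoc, ← mul_assoc, Matrix.mul_nonsing_inv _ hP,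
    one_mul, Matrix.mulVec_smul, ← Matrix.mulVec_mulVec] at this
  exact this

theorem pow48 [Fact (Nat.Prime 3)] (u : (M₂ (ZMod 3))ˣ) : u ^ (3 * 16) = 1 := by
  have h := Matrix.card_GL_field (𝔽 := ZMod 3) 2
  rw [ZMod.card, Fin.prod_univ_two] at h
  have h2 : u ^ Nat.card (Matrix.GeneralLinearGroup (Fin 2) (ZMod 3)) = 1 := pow_card_eq_one'
  rw [h] at h2
  simpa using h2

theorem pow480 [Fact (Nat.Prime 5)] (u : (M₂ (ZMod 5))ˣ) : u ^ (5 * 96) = 1 := by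
  have h := Matrix.card_GL_field (𝔽 := ZMod 5) 2
  rw [ZMod.card, Fin.prod_univ_two] at h
  have h2 : u ^ Nat.card (Matrix.GeneralLinearGroup (Fin 2) (ZMod 5)) = 1 := pow_card_eq_one'
  rw [h] at h2
  simpa using h2

/-- **the core** : over an algebraically closed field. -/
theorem false_of_red {p : ℕ} [Fact p.Prime] (hp : p = 3 ∨ p = 5) (rbar0 : GQ →* M₂ (ZMod p))
    (cont : GaloisFactorsThroughFiniteLevel rbar0)
    (det : ∀ g, (rbar0 g).det = (ExtCitation.cycloChar p g : ZMod p))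
    (unip : ∀ q : ℕ, q.Prime → q ≠ p → ∀ A : ValuationSubring Qbar, A.LiesOverPrime q →
      ∀ τ ∈ A.inertiaSubgroupIn ℚ, (rbar0 τ - 1) ^ 2 = 0)
    [IsAlgClosed K] (ι : ZMod p →+* K)
    (irr : ∀ v : Fin 2 → K, v ≠ 0 → ∃ σ : GQ, ∀ c : K, ((rbar0 σ).map ι).mulVec v ≠ c • v)
    (hH : H.index = 2) {v : Fin 2 → K} (hv : v ≠ 0)
    (hred : ∀ σ ∈ H, ∃ c : K, ((rbar0 σ).map ι).mulVec v = c • v) : False := by
  have hchar : CharP K p := charP_of_injective_ringHom ι.injective p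
  let R : GQ →* M₂ K := (ι.mapMatrix : M₂ (ZMod p) →+* M₂ K).toMonoidHom.comp rbar0
  have hR : ∀ σ, R σ = ι.mapMatrix (rbar0 σ) := fun _ => rfl
  obtain ⟨P, hP, D⟩ := exists_dih R hH irr hv hred
  have hone : ∀ σ, rbar0 σ = 1 → conjHom P hP R σ = 1 := fun σ h =>
    conjHom_eq_one P hP R (by rw [hR, h, map_one])
  have contM : GaloisFactorsThroughFiniteLevel (conjHom P hP R) := by
    obtain ⟨L, hL, hL'⟩ := cont
    exact ⟨L, hL, fun σ hσ => hone σ (hL' σ hσ)⟩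
  have h2 : (2 : K) ≠ 0 := by
    intro h0
    have h6 : ((2 : ℕ) : K) = 0 := by exact_mod_cast h0
    rw [CharP.cast_eq_zero_iff K p] at h6
    rcases hp with rfl | rfl <;> omega
  have unrM : ∀ ℓ : ℕ, ℓ.Prime → ℓ ≠ p → ∃ A : ValuationSubring Qbar, A.LiesOverPrime ℓ ∧
      ∀ σ ∈ A.inertiaSubgroupIn ℚ, conjHom P hP R σ = 1 := by
    intro ℓ hℓ hℓp
    obtain ⟨A, hA⟩ := S13.exists_place ℓ hℓ
    refine ⟨A, hA, fun σ hσ => D.eq_one_of_unip h2 ?_⟩
    have e : conjHom P hP R σ - 1 = P⁻¹ * (R σ - 1) * P := by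
      rw [conjHom_apply, mul_sub, sub_mul, mul_one, Matrix.nonsing_inv_mul _ hP]
    have e2 : (R σ - 1) * (R σ - 1) = 0 := by
      rw [hR, ← map_one (ι.mapMatrix : M₂ (ZMod p) →+* M₂ K), ← map_sub, ← map_mul, ← pow_two,
        unip ℓ hℓ hℓp A hA σ hσ, map_zero]
    calc (conjHom P hP R σ - 1) * (conjHom P hP R σ - 1)
        = P⁻¹ * (R σ - 1) * (P * P⁻¹) * (R σ - 1) * P := by
          rw [e]
          simp only [mul_assoc]
      _ = P⁻¹ * ((R σ - 1) * (R σ - 1)) * P := by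
          rw [Matrix.mul_nonsing_inv _ hP, mul_one]
          simp only [mul_assoc]
      _ = 0 := by rw [e2, mul_zero, zero_mul]
  have irrM := conjHom_irr P hP R irr
  have detM : ∀ g, (conjHom P hP R g).det = ι (ExtCitation.cycloChar p g : ZMod p) := by
    intro g
    rw [conjHom_det, hR, ← det, RingHom.map_det]
  rcases hp with rfl | rfl
  · refine D.false_three contM unrM irrM (fun g => ?_)
    rw [← map_pow]
    apply hone
    rw [map_pow]
    have := congrArg Units.val (pow48 (rbar0.toHomUnits g))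
    rwa [Units.val_pow_eq_pow_val, MonoidHom.coe_toHomUnits, Units.val_one] at this
  · refine D.false_five contM unrM ι detM (fun g => ?_)
    rw [← map_pow]
    apply hone
    rw [map_pow]
    have := congrArg Units.val (pow480 (rbar0.toHomUnits g))
    rwa [Units.val_pow_eq_pow_val, MonoidHom.coe_toHomUnits, Units.val_one] at this

end Irr2

/-- **[O5]** the hypothesis `irr2` of `S56.RbarHyp` for a residual representation over `𝔽_p`, `p = 3, 5`, with cyclotomic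
determinant and unipotent inertia at all `q ≠ p` (semistable case).   No information at `p` is needed. -/
theorem irr2_of_unip {p : ℕ} [Fact p.Prime] (hp : p = 3 ∨ p = 5) (rbar0 : GQ →* M₂ (ZMod p))
    (cont : GaloisFactorsThroughFiniteLevel rbar0)
    (det : ∀ g, (rbar0 g).det = (ExtCitation.cycloChar p g : ZMod p))
    (unip : ∀ q : ℕ, q.Prime → q ≠ p → ∀ A : ValuationSubring Qbar, A.LiesOverPrime q →
      ∀ τ ∈ A.inertiaSubgroupIn ℚ, (rbar0 τ - 1) ^ 2 = 0)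
    {k : Type} [Field k] [Algebra (ZMod p) k] (irr : S56.AbsIrrOn (RIB.mapK k rbar0) ⊤) :
    ∀ H : Subgroup GQ, H.index = 2 → S56.AbsIrrOn (RIB.mapK k rbar0) H := by
  intro H hH
  by_contra hcon
  unfold S56.AbsIrrOn at hcon
  push Not at hcon
  obtain ⟨v, hv, hred⟩ := hcon
  have hmap : ∀ σ, ((RIB.mapK k rbar0 σ).map (algebraMap k (AlgebraicClosure k))) =
      (rbar0 σ).map ((algebraMap k (AlgebraicClosure k)).comp (algebraMap (ZMod p) k)) := by
    intro σ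
    rw [RIB.mapK_apply, Matrix.map_map]
    rfl
  refine Irr2.false_of_red hp rbar0 cont det unip
    ((algebraMap k (AlgebraicClosure k)).comp (algebraMap (ZMod p) k)) (fun w hw => ?_) hH hv
    (fun σ hσ => ?_)
  · obtain ⟨σ, -, hσ⟩ := irr w hw
    exact ⟨σ, fun c => by rw [← hmap]; exact hσ c⟩
  · obtain ⟨c, hc⟩ := hred σ hσ
    exact ⟨c, by rw [← hmap]; exact hc⟩

end Fermat.Agent.ML
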