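import Fermat.Agent.ML.Gen.Rbar
import Fermat.Agent.ML.Rbar.Irr2

/-!
# ML / Rbar / Hyp : `S56.RbarHyp` for `MCtx`, `p = 3, 5`, WITHOUT hypothesis (`irr2` from `irr2_of_unip`)
-/

set_option autoImplicit false

noncomputable section

namespace Fermat.Agent.ML

open Fermat.Agent.RIB Fermat.Agent.S56

local notation "GQ" => (AlgebraicClosure ℚ ≃ₐ[ℚ] AlgebraicClosure ℚ)
local notation "M₂" => Matrix (Fin 2) (Fin 2)

variable {p : ℕ} [Fact p.Prime] {T : Finset ℕ} {θ : ℕ → ℤ} {rbar0 : GQ →* M₂ (ZMod p)}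

/-- **[O5]** for `MCtx`. -/
theorem MCtx.irr2 (C : MCtx p T θ rbar0) (hp : p = 3 ∨ p = 5) :
    ∀ H : Subgroup GQ, H.index = 2 → AbsIrrOn (mapK (kM p) rbar0) H :=
  irr2_of_unip hp rbar0 C.cont C.det
    (fun q hq hqp A hA τ hτ => by
      rw [pow_two]
      exact C.unipI q hq hqp A hA τ hτ τ hτ)
    (C.absIrr _)

/-- **`S56.RbarHyp` for `MCtx`**, `p = 3, 5`. -/
theorem MCtx.rbarHyp35 (C : MCtx p T θ rbar0) (hp : p = 3 ∨ p = 5) :
    RbarHyp p (mapK (kM p) rbar0) :=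
  C.rbarHyp (C.irr2 hp)

end Fermat.Agent.ML
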