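import Fermat.Agent.ML.Rbar.Hyp
import Fermat.Agent.ML.Low.Main.NonEis

/-!
# ML / Rbar / R2 : `[R2-EX]` a prime `r ≡ 2 mod 3` with `θ r ≢ 0 mod 3`   (chief note ML-2, (D2))

`MCtx.exists_r2 (C : MCtx 3 T θ rbar0) (S : Finset ℕ) : ∃ r : Nat.Primes, r ∉ S ∧ r % 3 = 2 ∧ ¬ 3 ∣ θ r`.

Proof.  If `tr rbar0 g = 0` for all `g` with `det rbar0 g = -1`, then on `H = {det = 1}` (index `2`), in Wiles' normal form, the two
diagonal entries are equal, hence the off-diagonal parts are proportional: `H` has a common eigenvector over the algebraic closure,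
against `MCtx.irr2`.   So there is `g` with `det = -1`, `tr ≠ 0`; `g` is a power of a Frobenius `X` on the splitting field (`genCheb`);
if `det X = 1` then `det g = 1`; if `det X = -1` and `tr X = 0` then `X² = 1` and `g ∈ {1, X}`.
-/

set_option autoImplicit false

noncomputable section

namespace Fermat.Agent.ML

open Fermat.Agent.RIB Fermat.Agent.S56 Fermat.Agent.GAL Fermat.Agent.GAL.PC

local notation "Qbar" => AlgebraicClosure ℚ
local notation "GQ" => (AlgebraicClosure ℚ ≃ₐ[ℚ] AlgebraicClosure ℚ)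
local notation "M₂" => Matrix (Fin 2) (Fin 2)

namespace R2

/-- matrices with equal diagonal entries and proportional off-diagonal parts have a common eigenvector. -/
theorem exists_common_eigen {K : Type*} [Field K] [IsAlgClosed K] (𝒮 : Set (M₂ K))
    (hd : ∀ X ∈ 𝒮, X 0 0 = X 1 1)
    (hp : ∀ X ∈ 𝒮, ∀ Y ∈ 𝒮, X 0 1 * Y 1 0 = X 1 0 * Y 0 1) :
    ∃ v : Fin 2 → K, v ≠ 0 ∧ ∀ X ∈ 𝒮, ∃ c : K, X.mulVec v = c • v := by
  by_cases hb : ∃ X ∈ 𝒮, X 0 1 ≠ 0
  · obtain ⟨X₀, hX₀, hb₀⟩ := hb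
    obtain ⟨κ, hκ⟩ := IsAlgClosed.exists_pow_nat_eq (X₀ 1 0 / X₀ 0 1) (n := 2) (by norm_num)
    refine ⟨![1, κ], fun h => ?_, fun Y hY => ⟨Y 0 0 + Y 0 1 * κ, ?_⟩⟩
    · have := congrFun h 0
      simp at this
    · have h1 : Y 1 0 = κ ^ 2 * Y 0 1 := by
        rw [hκ]
        field_simp
        linear_combination hp X₀ hX₀ Y hY
      funext i
      fin_cases i
      · simp [Matrix.mulVec, dotProduct, Fin.sum_univ_two]
      · simp [Matrix.mulVec, dotProduct, Fin.sum_univ_two, h1, ← hd Y hY]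
        ring
  · push Not at hb
    refine ⟨![0, 1], fun h => ?_, fun Y hY => ⟨Y 1 1, ?_⟩⟩
    · have := congrFun h 1
      simp at this
    · funext i
      fin_cases i
      · simp [Matrix.mulVec, dotProduct, Fin.sum_univ_two, hb Y hY]
      · simp [Matrix.mulVec, dotProduct, Fin.sum_univ_two]

theorem zmod3_cases (x : ZMod 3) (hx : x ≠ 0) : x = 1 ∨ x = -1 := by
  revert x
  decide

theorem zmod3_one_ne : (1 : ZMod 3) ≠ -1 := by decide

theorem zmod3_a : ¬ (1 : ZMod 3) * -1 = 1 := by decide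

theorem zmod3_b : (-1 : ZMod 3) * -1 = 1 := by decide

theorem zmod3_c : ¬ (-1 : ZMod 3) = 1 := by decide

theorem zmod3_d : (-1 : ZMod 3) = ((2 : ℕ) : ZMod 3) := by decide

/-- Cayley-Hamilton for a matrix of trace `0` and determinant `-1`. -/
theorem sq_eq_one {R : Type*} [CommRing R] (X : M₂ R) (ht : X.trace = 0) (hd : X.det = -1) :
    X * X = 1 := by
  rw [Matrix.trace_fin_two] at ht
  rw [Matrix.det_fin_two] at hd
  have h11 : X 1 1 = - X 0 0 := by linear_combination ht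
  ext i j
  fin_cases i <;> fin_cases j <;>
    simp [Matrix.mul_apply, Fin.sum_univ_two, h11] <;>
    first
      | (rw [h11] at hd; linear_combination -hd)
      | ring

theorem pow_cases {R : Type*} [CommRing R] (X : M₂ R) (h : X * X = 1) (n : ℕ) :
    X ^ n = 1 ∨ X ^ n = X := by
  induction n with
  | zero => left; simp
  | succ n ih =>
    rcases ih with h1 | h1
    · right; rw [pow_succ, h1, one_mul]
    · left; rw [pow_succ, h1, h]

end R2

variable [Fact (Nat.Prime 3)] {T : Finset ℕ} {θ : ℕ → ℤ} {rbar0 : GQ →* M₂ (ZMod 3)}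

theorem MCtx.det_ne_zero (C : MCtx 3 T θ rbar0) (g : GQ) : (rbar0 g).det ≠ 0 := by
  rw [C.det]
  exact Units.ne_zero _

/-- there is `g` with `det = -1` and `tr ≠ 0`. -/
theorem MCtx.r2_exists_det_neg_one_trace_ne_zero (C : MCtx 3 T θ rbar0) :
    ∃ g : GQ, (rbar0 g).det = -1 ∧ (rbar0 g).trace ≠ 0 := by
  by_contra hcon
  push Not at hcon
  have hdc : (rbar0 complexConjugation).det = -1 := by
    rw [C.det]
    exact cycloChar_complexConjugation 3
  -- the subgroup `det = 1`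
  let H : Subgroup GQ :=
    { carrier := {g | (rbar0 g).det = 1}
      one_mem' := by simp
      mul_mem' := fun {a b} ha hb => by
        show (rbar0 (a * b)).det = 1
        rw [map_mul, Matrix.det_mul, ha, hb, one_mul]
      inv_mem' := fun {a} ha => by
        show (rbar0 a⁻¹).det = 1
        have h1 : (rbar0 a⁻¹).det * (rbar0 a).det = 1 := by
          rw [← Matrix.det_mul, ← map_mul, inv_mul_cancel, map_one, Matrix.det_one]
        rwa [show (rbar0 a).det = 1 from ha, mul_one] at h1 }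
  have hmem : ∀ g, g ∈ H ↔ (rbar0 g).det = 1 := fun _ => Iff.rfl
  have hidx : H.index = 2 := by
    rw [Subgroup.index_eq_two_iff]
    refine ⟨complexConjugation, fun b => ?_⟩
    rw [hmem, hmem, map_mul, Matrix.det_mul, hdc]
    rcases R2.zmod3_cases _ (C.det_ne_zero b) with h | h
    · rw [h]
      exact Or.inr ⟨rfl, R2.zmod3_a⟩
    · rw [h]
      exact Or.inl ⟨R2.zmod3_b, R2.zmod3_c⟩
  obtain ⟨σ₀, τ₀, u, -, hnf⟩ := C.nf
  -- equal diagonal entries on `H`
  have hdiag : ∀ g ∈ H, (rbar0 g) 0 0 = (rbar0 g) 1 1 := by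
    intro g hg
    have h0 : (rbar0 (complexConjugation * g)).trace = 0 := by
      apply hcon
      rw [map_mul, Matrix.det_mul, hdc, (hmem g).1 hg, mul_one]
    have h1 : (rbar0 g) 0 0 =
        TW.TR.aF (fun g => (rbar0 g).trace) (2 : ZMod 3)⁻¹ complexConjugation g := by
      conv_lhs => rw [hnf g]
      rfl
    have h2 : (rbar0 g) 1 1 =
        TW.TR.dF (fun g => (rbar0 g).trace) (2 : ZMod 3)⁻¹ complexConjugation g := by
      conv_lhs => rw [hnf g]
      rfl
    rw [h1, h2, TW.TR.aF_eq, TW.TR.dF_eq, h0, add_zero, sub_zero]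
  have hprop : ∀ g ∈ H, ∀ h ∈ H, (rbar0 g) 0 1 * (rbar0 h) 1 0 = (rbar0 g) 1 0 * (rbar0 h) 0 1 := by
    intro g hg h hh
    have h1 := hdiag (g * h) (H.mul_mem hg hh)
    rw [map_mul, Matrix.mul_apply, Matrix.mul_apply, Fin.sum_univ_two, Fin.sum_univ_two,
      hdiag g hg, hdiag h hh] at h1
    linear_combination h1
  -- a common eigenvector over the algebraic closure
  set ι : ZMod 3 →+* AlgebraicClosure (kM 3) :=
    (algebraMap (kM 3) (AlgebraicClosure (kM 3))).comp (algebraMap (ZMod 3) (kM 3)) with hι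
  obtain ⟨v, hv, hev⟩ := R2.exists_common_eigen
    {X : M₂ (AlgebraicClosure (kM 3)) | ∃ g ∈ H, X = (rbar0 g).map ι}
    (by
      rintro X ⟨g, hg, rfl⟩
      rw [Matrix.map_apply, Matrix.map_apply, hdiag g hg])
    (by
      rintro X ⟨g, hg, rfl⟩ Y ⟨h, hh, rfl⟩
      simp only [Matrix.map_apply]
      rw [← map_mul, ← map_mul, hprop g hg h hh])
  obtain ⟨σ, hσ, hne⟩ := C.irr2 (Or.inl rfl) H hidx v hv
  obtain ⟨c, hc⟩ := hev _ ⟨σ, hσ, rfl⟩
  apply hne c
  rw [← hc, RIB.mapK_apply, Matrix.map_map]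
  rfl

/-- **[R2-EX]** -/
theorem MCtx.exists_r2 (C : MCtx 3 T θ rbar0) (S : Finset ℕ) :
    ∃ r : Nat.Primes, (r : ℕ) ∉ S ∧ (r : ℕ) % 3 = 2 ∧ ¬ (3 : ℤ) ∣ θ r := by
  classical
  obtain ⟨g, hgd, hgt⟩ := C.r2_exists_det_neg_one_trace_ne_zero
  obtain ⟨F, hF, h₁⟩ := C.cont
  obtain ⟨r, A, τ, n, hr, hrS, hA, hτ, hg⟩ := genCheb F hF g (S ∪ T)
  have hrS' : r ∉ S := fun h => hrS (Finset.mem_union_left _ h)
  have hrT : r ∉ T := fun h => hrS (Finset.mem_union_right _ h)
  set η : GQ := (τ ^ n)⁻¹ * g with hη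
  have hgη : g = τ ^ n * η := by rw [hη, mul_inv_cancel_left]
  have hη1 : rbar0 η = 1 := h₁ η fun y hy => by
    rw [hη, AlgEquiv.mul_apply, hg y hy]
    exact (τ ^ n).symm_apply_apply y
  obtain ⟨ht, hd⟩ := C.frob r hr hrT A hA τ hτ
  have hgX : rbar0 g = rbar0 τ ^ n := by rw [hgη, map_mul, hη1, mul_one, map_pow]
  -- `det X = -1`
  have hdX : (rbar0 τ).det = -1 := by
    rcases R2.zmod3_cases _ (C.det_ne_zero τ) with h | h
    · exfalso
      rw [hgX, Matrix.det_pow, h, one_pow] at hgd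
      exact R2.zmod3_one_ne hgd
    · exact h
  -- `tr X ≠ 0`
  have htX : (rbar0 τ).trace ≠ 0 := by
    intro h0
    rcases R2.pow_cases _ (R2.sq_eq_one _ h0 hdX) n with h | h
    · rw [hgX, h, Matrix.det_one] at hgd
      exact R2.zmod3_one_ne hgd
    · rw [hgX, h] at hgt
      exact hgt h0
  refine ⟨⟨r, hr⟩, hrS', ?_, fun hdvd => htX ?_⟩
  · have h1 : ((r : ℕ) : ZMod 3) = ((2 : ℕ) : ZMod 3) := by
      rw [← hd, hdX]
      exact R2.zmod3_d
    have h2 := (ZMod.natCast_eq_natCast_iff' r 2 3).1 h1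
    simpa using h2
  · rw [ht]
    exact (ZMod.intCast_zmod_eq_zero_iff_dvd _ 3).2 (by exact_mod_cast hdvd)

end Fermat.Agent.ML
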